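import Fermat.Agent.S28.Export.Modular
import Fermat.Agent.S28.Analytic.Assembly
import Fermat.Agent.S28.Analytic.GenInterp

/-!
# S28/Export: skeleton of the node "u ∈ F_N" (tasks EX-C1, EX-C2, EX-C5).  WIP file, never import.
-/

set_option autoImplicit false

noncomputable section

open ModularCurve Polynomial

namespace Fermat.Agent.S28.Export

/-- EX-C1, file `Export/Card.lean`. -/
theorem exists_UData_card (N : ℕ) [NeZero N] (ℓ : ℕ) [Fact ℓ.Prime] (hℓN : ¬ ℓ ∣ N) :
    ∃ D : UData N ℓ, D.n = Nat.card (Q0 N) := by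
  sorry

/-- EX-C2, file `Export/Index.lean`. -/
theorem card_Q0 (N : ℕ) [NeZero N] : Nat.card (Q0 N) = (CongruenceSubgroup.Gamma0 N).index := by
  sorry

/-- EX-C5, file `Export/DescentQ.lean`: a rational Laurent series lying in `L(S)` lies in `ℚ(S)`. -/
theorem mem_adjoin_of_coeffMap_mem {L : Type*} [Field L] [CharZero L]
    (S : Set (LaurentSeries ℚ)) (z : LaurentSeries ℚ)
    (hz : coeffMap (algebraMap ℚ L) z ∈
      IntermediateField.adjoin L (coeffMap (algebraMap ℚ L) '' S)) :
    z ∈ IntermediateField.adjoin ℚ S := by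
  sorry

/-- EX-C5 (b): the image of `ℚ(S)` lies in `L(S)`. -/
theorem coeffMap_mem_adjoin {L : Type*} [Field L] [CharZero L]
    (S : Set (LaurentSeries ℚ)) (z : LaurentSeries ℚ) (hz : z ∈ IntermediateField.adjoin ℚ S) :
    coeffMap (algebraMap ℚ L) z ∈
      IntermediateField.adjoin L (coeffMap (algebraMap ℚ L) '' S) := by
  sorry

/-- EX-C5 (c) -/
theorem image_divisorExpansions {L : Type*} [Field L] [CharZero L] (N : ℕ) :
    coeffMap (algebraMap ℚ L) '' (divisorExpansionsC ℚ N) = divisorExpansionsC L N := by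
  sorry

end Fermat.Agent.S28.Export

end
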